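import Mathlib
import Fermat.Agent.CFT.Coh.InfRes2
import Fermat.Agent.CFT.Glob.ClassP

/-!
# P3 / CFT, global layer, [F2] local–global injectivity: the abstract crossing

Pure algebra on 2-cocycles `G × G → V` in the vocabulary of `Coh/InfRes2` and `Glob/ClassP`
(`IsCoc ρ F`, `dOne ρ x`, `H1Van ρ S`, `descent_injective`).  No number fields.

Say that a pair of representations with an equivariant map `j : A → C` *satisfies [LG]* if every
2-cocycle in `A` whose image in `C` is a coboundary is itself a coboundary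
(`H²(G, A) → H²(G, C)` is injective).

`lg_cross`: let `Gt` act on `A'`, `C'` with `j' : A' → C'`, and let
* `π₁ : Gt ↠ G`, `(A, C, j)` over `G` with descent maps `ιA : A → A'` (injective, range the
  `ker π₁`-invariants, `H¹(ker π₁, A') = 0`) and `ιC : C → C'`;
* `π₂ : Gt ↠ Γ`, `(AE, CE, jE)` over `Γ` with descent maps `κA : AE → A'` and `κC : CE → C'`
  (injective, range the `ker π₂`-invariants, `H¹(ker π₂, C') = 0`);
* `H²(Gt, A')` is generated by the class of one cocycle `s`;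
* `β` is a 2-cocycle of `Γ` in `AE` whose inflation to `Gt` has order divisible by `|G|`;
* `(AE, CE, jE)` satisfies [LG].
Then `(A, C, j)` satisfies [LG].

Application (`LG/Main.lean`): `A' = ∏_{w' ∣ v} L'_{w'}ˣ`, `C' = C_{L'}` for `L' = L·E`, `E/K` an
auxiliary cyclic cyclotomic extension unramified at `v` with local degree divisible by `|G|`.
-/

set_option autoImplicit false

namespace Fermat.Agent.CFT.Global.LG

open Fermat.Agent.CFT.Coh.InfRes2Core Fermat.Agent.CFT.Glob.ClassP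

/-- Arithmetic of a cyclic group, in terms of the subgroup `I ≤ ℤ` of integers killing the
generator: if `n • (c • s) = 0` and `b • s` has order divisible by `n ≠ 0`, then `c • s` is a
multiple of `b • s`. -/
theorem cyc_arith (I : AddSubgroup ℤ) (b c n : ℤ) (hn : n ≠ 0) (h1 : n * c ∈ I)
    (h2 : ∀ k : ℤ, k * b ∈ I → n ∣ k) : ∃ k' : ℤ, c - k' * b ∈ I := by
  obtain ⟨g, rfl⟩ : ∃ g : ℤ, I = AddSubgroup.zmultiples g := by
    obtain ⟨g, hg⟩ := Int.subgroup_cyclic I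
    exact ⟨g, by rw [hg, AddSubgroup.zmultiples_eq_closure]⟩
  simp only [Int.mem_zmultiples_iff] at h1 h2 ⊢
  set d : ℤ := (Int.gcd b g : ℤ) with hd
  have hdb : d ∣ b := Int.gcd_dvd_left b g
  have hdg : d ∣ g := Int.gcd_dvd_right b g
  obtain ⟨b', hb'⟩ := hdb
  obtain ⟨g', hg'⟩ := hdg
  -- `g' * b = g * b'`, so `n ∣ g'`
  have h3 : n ∣ g' := h2 g' ⟨b', by rw [hb', hg']; ring⟩
  obtain ⟨t, ht⟩ := h3
  -- `g ∣ n * c` gives `d ∣ c`
  obtain ⟨e, he⟩ := h1
  have h4 : d ∣ c := by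
    refine ⟨t * e, ?_⟩
    have : n * c = n * (d * (t * e)) := by rw [he, hg', ht]; ring
    exact mul_left_cancel₀ hn this
  obtain ⟨c', hc'⟩ := h4
  have hbez : d = b * Int.gcdA b g + g * Int.gcdB b g := Int.gcd_eq_gcd_ab b g
  refine ⟨c' * Int.gcdA b g, c' * Int.gcdB b g, ?_⟩
  rw [hc']
  nth_rewrite 1 [hbez]
  ring

section Cross

variable {k : Type*} [CommRing k]
variable {Gt G Γ : Type*} [Group Gt] [Group G] [Finite G] [Group Γ]
variable {A' C' A C AE CE : Type*}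
  [AddCommGroup A'] [Module k A'] [AddCommGroup C'] [Module k C']
  [AddCommGroup A] [Module k A] [AddCommGroup C] [Module k C]
  [AddCommGroup AE] [Module k AE] [AddCommGroup CE] [Module k CE]

/-- An equivariant additive map commutes with the coboundary. -/
lemma map_dOne {H V W : Type*} [Group H] [AddCommGroup V] [Module k V] [AddCommGroup W]
    [Module k W] (ρV : Representation k H V) (ρW : Representation k H W) (j : V →+ W)
    (hj : ∀ g v, j (ρV g v) = ρW g (j v)) (x : H → V) (g h : H) :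
    j (dOne ρV x (g, h)) = dOne ρW (fun a => j (x a)) (g, h) := by
  simp only [dOne_apply, map_add, map_sub, hj]

/-- **The abstract crossing for local–global injectivity.** -/
theorem lg_cross
    (ρA' : Representation k Gt A') (ρC' : Representation k Gt C') (j' : A' →+ C')
    (hj' : ∀ g a, j' (ρA' g a) = ρC' g (j' a))
    -- tower 1
    (ρA : Representation k G A) (ρC : Representation k G C) (j : A →+ C)
    (π₁ : Gt →* G) (hπ₁ : Function.Surjective π₁)
    (ιA : A →+ A') (hιA : Function.Injective ιA)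
    (hιAπ : ∀ g a, ιA (ρA (π₁ g) a) = ρA' g (ιA a))
    (hιAr : ∀ a' : A', (∀ n ∈ π₁.ker, ρA' n a' = a') → ∃ a, ιA a = a')
    (ιC : C →+ C') (hιCπ : ∀ g c, ιC (ρC (π₁ g) c) = ρC' g (ιC c))
    (hsq₁ : ∀ a, j' (ιA a) = ιC (j a))
    (h1A : H1Van ρA' π₁.ker)
    -- tower 2
    (ρAE : Representation k Γ AE) (ρCE : Representation k Γ CE) (jE : AE →+ CE)
    (hjE : ∀ g a, jE (ρAE g a) = ρCE g (jE a))
    (π₂ : Gt →* Γ) (hπ₂ : Function.Surjective π₂)
    (κA : AE →+ A') (hκAπ : ∀ g a, κA (ρAE (π₂ g) a) = ρA' g (κA a))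
    (κC : CE →+ C') (hκC : Function.Injective κC)
    (hκCπ : ∀ g c, κC (ρCE (π₂ g) c) = ρC' g (κC c))
    (hκCr : ∀ c' : C', (∀ n ∈ π₂.ker, ρC' n c' = c') → ∃ c, κC c = c')
    (hsq₂ : ∀ a, j' (κA a) = κC (jE a))
    (h1C : H1Van ρC' π₂.ker)
    -- `H²(Gt, A')` is generated by `s`
    (s : Gt × Gt → A')
    (hgen : ∀ T : Gt × Gt → A', IsCoc ρA' T →
      ∃ (m : ℤ) (b : Gt → A'), ∀ x y, T (x, y) = m • s (x, y) + dOne ρA' b (x, y))
    -- the auxiliary class
    (β : Γ × Γ → AE) (hβ : IsCoc ρAE β)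
    (hβord : ∀ m : ℤ, (∃ b : Gt → A', ∀ x y, m • κA (β (π₂ x, π₂ y)) = dOne ρA' b (x, y)) →
      (Nat.card G : ℤ) ∣ m)
    -- [LG] for the auxiliary pair
    (hLG : ∀ γ : Γ × Γ → AE, IsCoc ρAE γ →
      (∃ y : Γ → CE, ∀ a b, jE (γ (a, b)) = dOne ρCE y (a, b)) →
      ∃ x : Γ → AE, ∀ a b, γ (a, b) = dOne ρAE x (a, b))
    (τ : G × G → A) (hτ : IsCoc ρA τ)
    (hτC : ∃ y : G → C, ∀ a b, j (τ (a, b)) = dOne ρC y (a, b)) :
    ∃ x : G → A, ∀ a b, τ (a, b) = dOne ρA x (a, b) := by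
  classical
  -- the subgroup of integers killing the class of `s`
  let I : AddSubgroup ℤ :=
    { carrier := {m | ∃ b : Gt → A', ∀ x y, m • s (x, y) = dOne ρA' b (x, y)}
      zero_mem' := ⟨0, fun x y => by simp [dOne_apply]⟩
      add_mem' := by
        rintro m m' ⟨b, hb⟩ ⟨b', hb'⟩
        exact ⟨b + b', fun x y => by rw [add_smul, hb, hb', dOne_add_apply]⟩
      neg_mem' := by
        rintro m ⟨b, hb⟩
        refine ⟨(-1 : ℤ) • b, fun x y => ?_⟩
        rw [dOne_zsmul_apply, ← hb, neg_smul, neg_smul, one_smul] }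
  have hI : ∀ m : ℤ, m ∈ I ↔ ∃ b : Gt → A', ∀ x y, m • s (x, y) = dOne ρA' b (x, y) :=
    fun m => Iff.rfl
  -- inflations
  obtain ⟨c, b₁, hc⟩ := hgen (fun q => ιA (τ (π₁ q.1, π₁ q.2))) (isCoc_infl ρA' ρA π₁ ιA hιAπ hτ)
  obtain ⟨b, b₂, hb⟩ := hgen (fun q => κA (β (π₂ q.1, π₂ q.2)))
    (isCoc_infl ρA' ρAE π₂ κA hκAπ hβ)
  simp only at hc hb
  have hn : (Nat.card G : ℤ) ≠ 0 := by exact_mod_cast Nat.card_pos.ne'
  -- `|G| • τ` is a coboundary, hence `|G| * c ∈ I`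
  have F1 : (Nat.card G : ℤ) * c ∈ I := by
    obtain ⟨x₀, hx₀⟩ := card_zsmul_eq_dOne ρA hτ
    refine ⟨fun g => ιA (x₀ (π₁ g)) - (Nat.card G : ℤ) • b₁ g, fun x y => ?_⟩
    have e1 : (Nat.card G : ℤ) • ιA (τ (π₁ x, π₁ y)) = dOne ρA' (fun g => ιA (x₀ (π₁ g))) (x, y) := by
      rw [← map_zsmul, hx₀, infl_dOne ρA' ρA π₁ ιA hιAπ]
    have e2 : dOne ρA' (fun g => ιA (x₀ (π₁ g)) - (Nat.card G : ℤ) • b₁ g) (x, y) =
        dOne ρA' (fun g => ιA (x₀ (π₁ g))) (x, y) - (Nat.card G : ℤ) • dOne ρA' b₁ (x, y) := by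
      rw [← dOne_zsmul_apply]
      exact dOne_sub_apply ρA' _ _ x y
    rw [e2, ← e1, hc, smul_add, mul_smul]
    abel
  -- the inflation of `β` has order divisible by `|G|`
  have F2 : ∀ m : ℤ, m * b ∈ I → (Nat.card G : ℤ) ∣ m := by
    rintro m ⟨b₃, hb₃⟩
    refine hβord m ⟨b₃ + m • b₂, fun x y => ?_⟩
    rw [hb, smul_add, ← mul_smul, hb₃, dOne_add_apply, dOne_zsmul_apply]
  obtain ⟨k', b₄, hk'⟩ := cyc_arith I b c _ hn F1 F2
  -- `infl τ = k' • infl β + d b₅`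
  have hτβ : ∀ x y, ιA (τ (π₁ x, π₁ y)) = k' • κA (β (π₂ x, π₂ y)) +
      dOne ρA' (b₄ + b₁ - k' • b₂) (x, y) := by
    intro x y
    rw [hc, hb, dOne_sub_apply, dOne_add_apply, dOne_zsmul_apply, ← hk', sub_smul, mul_smul,
      smul_add]
    abel
  -- push to `C'` and descend along `π₂`
  obtain ⟨y, hy⟩ := hτC
  have hcocE : IsCoc ρCE (fun q : Γ × Γ => k' • jE (β q)) := by
    intro g h l
    have e := congrArg (fun v => k' • jE v) (hβ g h l)
    simp only [map_add, hjE, smul_add] at e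
    simp only [map_zsmul]
    exact e
  obtain ⟨y₂, hy₂⟩ := descent_injective ρC' ρCE π₂ κC hπ₂ hκC hκCπ hκCr h1C
    (fun q : Γ × Γ => k' • jE (β q)) hcocE
    (fun g => ιC (y (π₁ g)) - j' ((b₄ + b₁ - k' • b₂) g))
    (fun g h => by
      have e1 := congrArg j' (hτβ g h)
      rw [hsq₁, hy, infl_dOne ρC' ρC π₁ ιC hιCπ, map_add, map_zsmul, hsq₂,
        map_dOne ρA' ρC' j' hj'] at e1
      have e2 := dOne_sub_apply ρC' (fun g => ιC (y (π₁ g)))
        (fun g => j' ((b₄ + b₁ - k' • b₂) g)) g h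
      refine Eq.trans ?_ e2.symm
      rw [map_zsmul]
      exact (eq_sub_of_add_eq e1.symm))
  -- aux [LG]
  have hcocA : IsCoc ρAE (fun q : Γ × Γ => k' • β q) := by
    have := isCoc_zsmul ρAE hβ k'
    exact this
  obtain ⟨x₂, hx₂⟩ := hLG (fun q : Γ × Γ => k' • β q) hcocA
    ⟨y₂, fun a b => by rw [map_zsmul]; exact hy₂ a b⟩
  -- descend along `π₁`
  refine descent_injective ρA' ρA π₁ ιA hπ₁ hιA hιAπ hιAr h1A τ hτ
    (fun g => κA (x₂ (π₂ g)) + (b₄ + b₁ - k' • b₂) g) (fun g h => ?_)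
  rw [hτβ, ← map_zsmul, hx₂, infl_dOne ρA' ρAE π₂ κA hκAπ]
  exact (dOne_add_apply ρA' _ _ g h).symm

end Cross

end Fermat.Agent.CFT.Global.LG
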