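import Fermat.Agent.CFT.Global.LG.Cross

/-!
# P3 / CFT, global layer, [F2] local–global injectivity: the abstract crossing, `p`-group form

Variant of `LG.lg_cross` (`LG/Cross.lean`) in which the top group `Gt` is a finite `p`-group and
the auxiliary class `β` is only assumed to have a NON-TRIVIAL inflation (instead of an inflation
of order divisible by `|G|`): in the cyclic `p`-group `H²(Gt, A')` the kernel of
`H²(Gt, A') → H²(Gt, C')` and the image of the inflation from the auxiliary pair meet trivially,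
and the latter is non-zero, so the former vanishes.

* `cyc_arith_p` : the arithmetic of a cyclic `p`-group in terms of the ideal of integers killing
  a generator;
* `lg_cross_of_ne` : the crossing.
-/

set_option autoImplicit false

namespace Fermat.Agent.CFT.Global.LG

open Fermat.Agent.CFT.Coh.InfRes2Core Fermat.Agent.CFT.Glob.ClassP

/-- In a cyclic `p`-group two non-zero elements have a common non-zero multiple.  Stated for the
subgroup `I ≤ ℤ` of integers killing a generator. -/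
theorem cyc_arith_p (I : AddSubgroup ℤ) (p : ℕ) (hp : p.Prime) (N : ℕ) (hpN : (p : ℤ) ^ N ∈ I)
    (b c : ℤ) (hb : b ∉ I) (hc : c ∉ I) :
    ∃ k₁ k₂ : ℤ, k₁ * c - k₂ * b ∈ I ∧ k₂ * b ∉ I := by
  obtain ⟨g, rfl⟩ : ∃ g : ℤ, I = AddSubgroup.zmultiples g := by
    obtain ⟨g, hg⟩ := Int.subgroup_cyclic I
    exact ⟨g, by rw [hg, AddSubgroup.zmultiples_eq_closure]⟩
  simp only [Int.mem_zmultiples_iff] at hpN hb hc ⊢
  -- `g = ± p ^ M`
  have hgN : g.natAbs ∣ p ^ N := by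
    have := Int.natAbs_dvd_natAbs.mpr hpN
    rwa [Int.natAbs_pow, Int.natAbs_natCast] at this
  obtain ⟨M, -, hM⟩ := (Nat.dvd_prime_pow hp).mp hgN
  have hgM : ∀ x : ℤ, g ∣ x ↔ (p : ℤ) ^ M ∣ x := by
    intro x
    rw [← Int.natAbs_dvd, hM]
    norm_cast
  simp only [hgM] at hb hc ⊢
  have hM1 : 1 ≤ M := by
    rcases Nat.eq_zero_or_pos M with h0 | h0
    · exact absurd (by rw [h0, pow_zero]; exact one_dvd _) hb
    · exact h0
  -- every `x` not divisible by `p ^ M` has a multiple `≡ p ^ (M - 1)`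
  have key : ∀ x : ℤ, ¬ (p : ℤ) ^ M ∣ x → ∃ k : ℤ, (p : ℤ) ^ M ∣ k * x - (p : ℤ) ^ (M - 1) := by
    intro x hx
    have hd : Int.gcd x ((p : ℤ) ^ M) ∣ p ^ M := by
      have := Int.gcd_dvd_right x ((p : ℤ) ^ M)
      exact_mod_cast Int.natCast_dvd_natCast.mp (by simpa using this)
    obtain ⟨t, htM, ht⟩ := (Nat.dvd_prime_pow hp).mp hd
    have htlt : t < M := by
      rcases Nat.lt_or_ge t M with h | h
      · exact h
      · exfalso
        have htM' : t = M := le_antisymm htM h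
        apply hx
        have := Int.gcd_dvd_left x ((p : ℤ) ^ M)
        rw [ht, htM'] at this
        exact_mod_cast this
    have hbez : ((Int.gcd x ((p : ℤ) ^ M) : ℕ) : ℤ) =
        x * Int.gcdA x ((p : ℤ) ^ M) + (p : ℤ) ^ M * Int.gcdB x ((p : ℤ) ^ M) :=
      Int.gcd_eq_gcd_ab x _
    rw [ht] at hbez
    refine ⟨Int.gcdA x ((p : ℤ) ^ M) * (p : ℤ) ^ (M - 1 - t),
      ⟨-(Int.gcdB x ((p : ℤ) ^ M) * (p : ℤ) ^ (M - 1 - t)), ?_⟩⟩
    have hpow : (p : ℤ) ^ (M - 1) = (p : ℤ) ^ t * (p : ℤ) ^ (M - 1 - t) := by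
      rw [← pow_add]
      congr 1
      omega
    rw [hpow]
    have hbez' : ((p : ℤ) ^ t) = x * Int.gcdA x ((p : ℤ) ^ M) + (p : ℤ) ^ M * Int.gcdB x ((p : ℤ) ^ M) := by
      exact_mod_cast hbez
    rw [hbez']
    ring
  have he : ¬ (p : ℤ) ^ M ∣ (p : ℤ) ^ (M - 1) := by
    intro h
    have h2 : p ^ M ∣ p ^ (M - 1) := by exact_mod_cast h
    have := (Nat.pow_dvd_pow_iff_le_right hp.one_lt).mp h2
    omega
  obtain ⟨k₁, hk₁⟩ := key c hc
  obtain ⟨k₂, hk₂⟩ := key b hb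
  refine ⟨k₁, k₂, ?_, ?_⟩
  · have := dvd_sub hk₁ hk₂
    rwa [sub_sub_sub_cancel_right] at this
  · intro h
    exact he ((dvd_sub_right h).mp hk₂)

section Cross

variable {k : Type*} [CommRing k]
variable {Gt G Γ : Type*} [Group Gt] [Finite Gt] [Group G] [Group Γ]
variable {A' C' A C AE CE : Type*}
  [AddCommGroup A'] [Module k A'] [AddCommGroup C'] [Module k C']
  [AddCommGroup A] [Module k A] [AddCommGroup C] [Module k C]
  [AddCommGroup AE] [Module k AE] [AddCommGroup CE] [Module k CE]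

/-- **The abstract crossing for local–global injectivity, `p`-group form.**  As `lg_cross`, with
`Gt` a finite `p`-group, `s` a cocycle generating `H²(Gt, A')`, and `β` a 2-cocycle of the
auxiliary pair whose inflation to `Gt` is not a coboundary. -/
theorem lg_cross_of_ne (p : ℕ) [Fact p.Prime] (hGt : IsPGroup p Gt)
    (ρA' : Representation k Gt A') (ρC' : Representation k Gt C') (j' : A' →+ C')
    (hj' : ∀ g a, j' (ρA' g a) = ρC' g (j' a))
    -- tower 1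
    (ρA : Representation k G A) (ρC : Representation k G C) (j : A →+ C)
    (π₁ : Gt →* G) (hπ₁ : Function.Surjective π₁)
    (ιA : A →+ A') (hιA : Function.Injective ιA)
    (hιAπ : ∀ g a, ιA (ρA (π₁ g) a) = ρA' g (ιA a))
    (hιAr : ∀ a' : A', (∀ n ∈ π₁.ker, ρA' n a' = a') → ∃ a, ιA a = a')
    (ιC : C →+ C') (hιCπ : ∀ g c, ιC (ρC (π₁ g) c) = ρC' g (ιC c))
    (hsq₁ : ∀ a, j' (ιA a) = ιC (j a))
    (h1A : H1Van ρA' π₁.ker)
    -- tower 2
    (ρAE : Representation k Γ AE) (ρCE : Representation k Γ CE) (jE : AE →+ CE)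
    (hjE : ∀ g a, jE (ρAE g a) = ρCE g (jE a))
    (π₂ : Gt →* Γ) (hπ₂ : Function.Surjective π₂)
    (κA : AE →+ A') (hκAπ : ∀ g a, κA (ρAE (π₂ g) a) = ρA' g (κA a))
    (κC : CE →+ C') (hκC : Function.Injective κC)
    (hκCπ : ∀ g c, κC (ρCE (π₂ g) c) = ρC' g (κC c))
    (hκCr : ∀ c' : C', (∀ n ∈ π₂.ker, ρC' n c' = c') → ∃ c, κC c = c')
    (hsq₂ : ∀ a, j' (κA a) = κC (jE a))
    (h1C : H1Van ρC' π₂.ker)
    -- `H²(Gt, A')` is generated by the cocycle `s`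
    (s : Gt × Gt → A') (hs : IsCoc ρA' s)
    (hgen : ∀ T : Gt × Gt → A', IsCoc ρA' T →
      ∃ (m : ℤ) (b : Gt → A'), ∀ x y, T (x, y) = m • s (x, y) + dOne ρA' b (x, y))
    -- the auxiliary class: its inflation is not a coboundary
    (β : Γ × Γ → AE) (hβ : IsCoc ρAE β)
    (hβne : ¬ ∃ b : Gt → A', ∀ x y, κA (β (π₂ x, π₂ y)) = dOne ρA' b (x, y))
    -- [LG] for the auxiliary pair
    (hLG : ∀ γ : Γ × Γ → AE, IsCoc ρAE γ →
      (∃ y : Γ → CE, ∀ a b, jE (γ (a, b)) = dOne ρCE y (a, b)) →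
      ∃ x : Γ → AE, ∀ a b, γ (a, b) = dOne ρAE x (a, b))
    (τ : G × G → A) (hτ : IsCoc ρA τ)
    (hτC : ∃ y : G → C, ∀ a b, j (τ (a, b)) = dOne ρC y (a, b)) :
    ∃ x : G → A, ∀ a b, τ (a, b) = dOne ρA x (a, b) := by
  classical
  -- the subgroup of integers killing the class of `s`
  let I : AddSubgroup ℤ :=
    { carrier := {m | ∃ b : Gt → A', ∀ x y, m • s (x, y) = dOne ρA' b (x, y)}
      zero_mem' := ⟨0, fun x y => by simp [dOne_apply]⟩
      add_mem' := by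
        rintro m m' ⟨b, hb⟩ ⟨b', hb'⟩
        exact ⟨b + b', fun x y => by rw [add_smul, hb, hb', dOne_add_apply]⟩
      neg_mem' := by
        rintro m ⟨b, hb⟩
        refine ⟨(-1 : ℤ) • b, fun x y => ?_⟩
        rw [dOne_zsmul_apply, ← hb, neg_smul, neg_smul, one_smul] }
  obtain ⟨c, b₁, hc⟩ := hgen (fun q => ιA (τ (π₁ q.1, π₁ q.2))) (isCoc_infl ρA' ρA π₁ ιA hιAπ hτ)
  obtain ⟨b, b₂, hb⟩ := hgen (fun q => κA (β (π₂ q.1, π₂ q.2)))
    (isCoc_infl ρA' ρAE π₂ κA hκAπ hβ)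
  simp only at hc hb
  -- `|Gt| = p ^ N` kills the class of `s`
  obtain ⟨N, hN⟩ := hGt.exists_card_eq
  have hpN : (p : ℤ) ^ N ∈ I := by
    obtain ⟨x₀, hx₀⟩ := card_zsmul_eq_dOne ρA' hs
    refine ⟨x₀, fun x y => ?_⟩
    rw [← hx₀, hN]
    norm_cast
  -- `b ∉ I`
  have hbI : b ∉ I := by
    rintro ⟨b₃, hb₃⟩
    exact hβne ⟨b₃ + b₂, fun x y => by rw [hb, hb₃, dOne_add_apply]⟩
  -- it suffices to show `c ∈ I`
  suffices hcI : c ∈ I by
    obtain ⟨b₃, hb₃⟩ := hcI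
    refine descent_injective ρA' ρA π₁ ιA hπ₁ hιA hιAπ hιAr h1A τ hτ (b₃ + b₁) (fun g h => ?_)
    rw [hc, hb₃, dOne_add_apply]
  by_contra hcI
  obtain ⟨k₁, k₂, ⟨b₄, hb₄⟩, hk₂⟩ := cyc_arith_p I p (Fact.out) N hpN b c hbI hcI
  apply hk₂
  -- `k₂ • infl β = k₁ • infl τ + d b₅`
  have hβτ : ∀ x y, k₂ • κA (β (π₂ x, π₂ y)) = k₁ • ιA (τ (π₁ x, π₁ y)) +
      dOne ρA' (k₂ • b₂ - k₁ • b₁ - b₄) (x, y) := by
    intro x y
    rw [hc, hb, dOne_sub_apply, dOne_sub_apply, dOne_zsmul_apply, dOne_zsmul_apply, ← hb₄,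
      sub_smul, mul_smul, mul_smul, smul_add, smul_add]
    abel
  -- push to `C'` and descend along `π₂`
  obtain ⟨y, hy⟩ := hτC
  have hcocE : IsCoc ρCE (fun q : Γ × Γ => k₂ • jE (β q)) := by
    intro g h l
    have e := congrArg (fun v => k₂ • jE v) (hβ g h l)
    simp only [map_add, hjE, smul_add] at e
    simp only [map_zsmul]
    exact e
  obtain ⟨y₂, hy₂⟩ := descent_injective ρC' ρCE π₂ κC hπ₂ hκC hκCπ hκCr h1C
    (fun q : Γ × Γ => k₂ • jE (β q)) hcocE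
    (fun g => k₁ • ιC (y (π₁ g)) + j' ((k₂ • b₂ - k₁ • b₁ - b₄) g))
    (fun g h => by
      have e1 := congrArg j' (hβτ g h)
      rw [map_zsmul, hsq₂, map_add, map_zsmul, hsq₁, hy, infl_dOne ρC' ρC π₁ ιC hιCπ,
        map_dOne ρA' ρC' j' hj', ← dOne_zsmul_apply] at e1
      have e2 := dOne_add_apply ρC' (k₁ • fun g => ιC (y (π₁ g)))
        (fun g => j' ((k₂ • b₂ - k₁ • b₁ - b₄) g)) g h
      refine Eq.trans ?_ e2.symm
      rw [map_zsmul]
      exact e1)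
  -- aux [LG]
  have hcocA : IsCoc ρAE (fun q : Γ × Γ => k₂ • β q) := isCoc_zsmul ρAE hβ k₂
  obtain ⟨x₂, hx₂⟩ := hLG (fun q : Γ × Γ => k₂ • β q) hcocA
    ⟨y₂, fun a b => by rw [map_zsmul]; exact hy₂ a b⟩
  -- hence `(k₂ * b) • s` is a coboundary
  refine ⟨(fun g => κA (x₂ (π₂ g))) - k₂ • b₂, fun x y => ?_⟩
  have e3 : k₂ • κA (β (π₂ x, π₂ y)) = dOne ρA' (fun g => κA (x₂ (π₂ g))) (x, y) := by
    rw [← map_zsmul, hx₂, infl_dOne ρA' ρAE π₂ κA hκAπ]
  rw [dOne_sub_apply, dOne_zsmul_apply, ← e3, hb, smul_add, mul_smul]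
  abel

end Cross

end Fermat.Agent.CFT.Global.LG
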