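import Fermat.Agent.CFT.Coh.Provide

/-!
# P3 / CFT, global layer, [F2] local–global injectivity: the cyclic case from the norm form

For a finite cyclic group `Γ = ⟨g⟩` and a morphism `j : A ⟶ C` of `Γ`-modules:
if every invariant `a ∈ A^Γ` whose image `j a` is a norm from `C` is a norm from `A`
(`Ĥ⁰(Γ, A) → Ĥ⁰(Γ, C)` injective), then `H²(Γ, A) → H²(Γ, C)` is injective.

This is the periodicity of the cohomology of cyclic groups in the explicit form
`Coh.Plan.CyclicH2` (classes of the cochains `cyc₂ g A a`), which is natural in `A` on the nose.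

* `cyc₂_map` : `j ∘ cyc₂ g A a = cyc₂ g C (j a)`;
* `injective_of_norm` : the statement above for `(groupCohomology.functor k Γ 2).map j`;
* `cocycle_injective_of_norm` : the same in cocycle form.
-/

set_option autoImplicit false

open CategoryTheory groupCohomology

namespace Fermat.Agent.CFT.Global.LG

open Fermat.Agent.CFT.Coh

variable {k Γ : Type} [CommRing k] [Group Γ] [Fintype Γ] (g : Γ) {A C : Rep.{0} k Γ} (j : A ⟶ C)

/-- The explicit cyclic 2-cochains are natural. -/
theorem cyc₂_map (a : A.V) (p : Γ × Γ) : j.hom (cyc₂ g A a p) = cyc₂ g C (j.hom a) p := by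
  unfold cyc₂
  split_ifs
  · rfl
  · exact map_zero _

/-- **Cyclic case, cocycle form.**  If invariants of `A` that become norms in `C` are norms in
`A`, then a 2-cocycle of `A` whose image in `C` is a coboundary is a coboundary. -/
theorem cocycle_injective_of_norm (hg : ∀ x : Γ, x ∈ Subgroup.zpowers g)
    (h : ∀ a : A.V, A.ρ g a = a → (∃ c : C.V, C.ρ.norm c = j.hom a) → ∃ b : A.V, A.ρ.norm b = a)
    (x : cocycles₂ A) (hx : (fun p => j.hom (x p)) ∈ coboundaries₂ C) :
    ⇑x ∈ coboundaries₂ A := by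
  obtain ⟨hA1, hA2, hA3⟩ := Provide.cyclicH2 k Γ g hg A
  obtain ⟨hC1, hC2, hC3⟩ := Provide.cyclicH2 k Γ g hg C
  obtain ⟨a, ha, hxa⟩ := hA2 x x.2
  -- push the relation `x - cyc₂ a ∈ B²` to `C`
  obtain ⟨y, hy⟩ := hxa
  have hja : C.ρ g (j.hom a) = j.hom a := by
    rw [← Rep.hom_comm_apply, ha]
  have h1 : cyc₂ g C (j.hom a) ∈ coboundaries₂ C := by
    have e : cyc₂ g C (j.hom a) = (fun p => j.hom (x p)) - (d₁₂ C).hom (fun s => j.hom (y s)) := by
      funext p
      have e1 := congrFun hy p
      rw [d₁₂_hom_apply] at e1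
      simp only [Pi.sub_apply, d₁₂_hom_apply]
      rw [← cyc₂_map, ← Rep.hom_comm_apply, ← map_sub, ← map_add, e1]
      simp only [Pi.sub_apply, map_sub]
      abel
    rw [e]
    exact Submodule.sub_mem _ hx ⟨_, rfl⟩
  obtain ⟨c, hc⟩ := (hC3 (j.hom a) hja).mp h1
  have h2 : cyc₂ g A a ∈ coboundaries₂ A := (hA3 a ha).mpr (h a ha ⟨c, hc⟩)
  have e2 : ⇑x = (⇑x - cyc₂ g A a) + cyc₂ g A a := by abel
  rw [e2]
  exact Submodule.add_mem _ ⟨y, hy⟩ h2

/-- **Cyclic case.**  For `Γ = ⟨g⟩` finite cyclic and `j : A ⟶ C`: if every invariant of `A`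
whose image is a norm from `C` is a norm from `A`, then `H²(Γ, A) → H²(Γ, C)` is injective. -/
theorem injective_of_norm (hg : ∀ x : Γ, x ∈ Subgroup.zpowers g)
    (h : ∀ a : A.V, A.ρ g a = a → (∃ c : C.V, C.ρ.norm c = j.hom a) → ∃ b : A.V, A.ρ.norm b = a) :
    Function.Injective ((groupCohomology.functor k Γ 2).map j).hom := by
  have key : Function.Injective (groupCohomology.map (MonoidHom.id Γ) j 2).hom := by
    rw [injective_iff_map_eq_zero]
    intro x hx
    induction x using H2_induction_on with | @h x =>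
    rw [H2π_comp_map_apply, H2π_eq_zero_iff] at hx
    rw [H2π_eq_zero_iff]
    exact cocycle_injective_of_norm g j hg h x hx
  exact key

end Fermat.Agent.CFT.Global.LG
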